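/-
T4 (S36), S36-G (helper4), part 3: **the Atkin–Lehner involution `W_{q²}` on the Tate module** of level
`N = N'' q q` (`q ∤ N''`): copy of helper3's `Lib/T2/F/AL.lean` and helper1's `Lib/T2/F/WT.lean` with
`(N', q) := (N'', q * q)` (their matrix lemmas `t2f_W_mul`, `t2f_W_sq`, `t2f5_W_mul_tri`, `t2f5_exists_rep`,
`t2f5_hom_comm` only use the Bézout relation `Q a − N'' c = 1`).

* `t4gSysW N'' q h`: the one-element coset system `{W_{q²}}` of `Γ₀(N'' q²)`;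
* `t4gW p N'' q h : Module.End ℤ_[p] TT`, `t4gW_mul_self : w * w = 1`, `t4gW_ι`;
* `t4g_WT`: `w` commutes with `T_l`, `l ∤ N'' q²`.
-/
import Mathlib
import Fermat.Agent.Lib.T2.F.WT

set_option autoImplicit false
set_option linter.unusedSectionVars false
set_option linter.unusedVariables false
set_option linter.style.haveILetI false

open scoped TensorProduct
open Matrix MatrixGroups CongruenceSubgroup Fermat.Agent.T1 Fermat.Agent.T2 ModularCurve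
  Fermat.Agent.S24Lib ModularCurve.Period

namespace Fermat.Agent.T4

local notation "Kbar" => AlgebraicClosure ℚ
local notation "GQ" => (AlgebraicClosure ℚ ≃ₐ[ℚ] AlgebraicClosure ℚ)

/-- the Bézout relation for `Q = q * q` -/
theorem t4g_bezout (N' q : ℕ) [hq : Fact q.Prime] (h : ¬ q ∣ N') :
    ((q * q : ℕ) : ℤ) * t2wA N' (q * q) - N' * t2wC N' (q * q) = 1 := by
  have h1 := Int.gcd_eq_gcd_ab ((q * q : ℕ) : ℤ) (N' : ℤ)
  have hcop1 : Nat.Coprime q N' := (Nat.Prime.coprime_iff_not_dvd hq.out).mpr h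
  have hcop : Nat.Coprime (q * q) N' := Nat.Coprime.mul_left hcop1 hcop1
  have h2 : Int.gcd ((q * q : ℕ) : ℤ) (N' : ℤ) = 1 := by
    rw [Int.gcd_natCast_natCast]
    exact hcop
  rw [h2] at h1
  rw [t2wA, t2wC]
  push_cast at h1 ⊢
  linarith

/-- the level `N' q q` is `N' (q q)` -/
theorem t4g_lvl (N' q : ℕ) : N' * q * q = N' * (q * q) := Nat.mul_assoc N' q q

section Sys

variable (N' q : ℕ) [NeZero N'] [hq : Fact q.Prime] (h : ¬ q ∣ N')

/-- the coset system `{W_q}` of `Γ₀(N' q)` -/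
noncomputable def t4gSysW : tdmCosetSys (Gamma0 (N' * q * q)) Unit :=
  tdmCosetSys.ofInequiv (fun _ => t2wMat N' (q * q) (t2wA N' (q * q)) (t2wC N' (q * q)))
    (fun _ => t2wMat_det_pos N' (q * q) (Nat.mul_pos hq.out.pos hq.out.pos) _ _ (t4g_bezout N' q h))
    (fun _ _ _ _ => rfl)
    (fun δ _ => by
      obtain ⟨hD, hN⟩ := tdm_Gamma0_data δ
      have hN' : ((N' * (q * q) : ℕ) : ℤ) ∣ ((δ : SL(2, ℤ)) : Matrix (Fin 2) (Fin 2) ℤ) 1 0 := by
        rw [← t4g_lvl]; exact hN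
      obtain ⟨E, hE, hE10⟩ := t2f_W_mul N' (q * q) (t2wA N' (q * q)) (t2wC N' (q * q)) (t4g_bezout N' q h)
        _ hD hN'
      rw [← t4g_lvl] at hE10
      exact ⟨(), ⟨E, (tdm_mem_Gamma0_iff E).mpr hE10⟩, hE⟩)

@[simp] theorem t4gSysW_rep (u : Unit) :
    (t4gSysW N' q h).rep u = t2wMat N' (q * q) (t2wA N' (q * q)) (t2wC N' (q * q)) := rfl

/-- the operator of `{W_q}` on `Hom(Γ₀(N' q), A)` is an involution -/
theorem t4gSysW_hom_hom {A : Type*} [AddCommGroup A] (φ : Additive (Gamma0 (N' * q * q)) →+ A) :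
    (t4gSysW N' q h).hom A ((t4gSysW N' q h).hom A φ) = φ := by
  set S := t4gSysW N' q h with hS
  obtain ⟨G, hG, hG10⟩ := t2f_W_sq N' (q * q) (t2wA N' (q * q)) (t2wC N' (q * q)) (t4g_bezout N' q h)
  rw [← t4g_lvl] at hG10
  set Gs : Gamma0 (N' * q * q) := ⟨G, (tdm_mem_Gamma0_iff G).mpr hG10⟩ with hGs
  refine AddMonoidHom.ext fun δ' => ?_
  obtain ⟨δ, rfl⟩ := Additive.ofMul.surjective δ'
  rw [tdmCosetSys.hom_apply, Finset.univ_unique, Finset.sum_singleton, tdmCosetSys.hom_apply,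
    Finset.univ_unique, Finset.sum_singleton]
  set ε₁ := S.eps δ default with hε₁
  set ε₂ := S.eps ε₁ default with hε₂
  set W := t2wMat N' (q * q) (t2wA N' (q * q)) (t2wC N' (q * q)) with hW
  have h1 : W * ((δ : SL(2, ℤ)) : Matrix (Fin 2) (Fin 2) ℤ)
      = ((ε₁ : SL(2, ℤ)) : Matrix (Fin 2) (Fin 2) ℤ) * W := S.rep_mul δ default
  have h2 : W * ((ε₁ : SL(2, ℤ)) : Matrix (Fin 2) (Fin 2) ℤ)
      = ((ε₂ : SL(2, ℤ)) : Matrix (Fin 2) (Fin 2) ℤ) * W := S.rep_mul ε₁ default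
  have h3 : ((q * q : ℕ) : ℤ) • (((ε₂ : SL(2, ℤ)) : Matrix (Fin 2) (Fin 2) ℤ) * (G : Matrix (Fin 2) (Fin 2) ℤ))
      = ((q * q : ℕ) : ℤ) • ((G : Matrix (Fin 2) (Fin 2) ℤ) * ((δ : SL(2, ℤ)) : Matrix (Fin 2) (Fin 2) ℤ)) := by
    rw [← Matrix.mul_smul, ← hG, ← Matrix.smul_mul, ← hG, ← Matrix.mul_assoc, ← h2,
      Matrix.mul_assoc, Matrix.mul_assoc, h1]
  have hq0 : ((q * q : ℕ) : ℤ) ≠ 0 := by exact_mod_cast Nat.mul_ne_zero hq.out.ne_zero hq.out.ne_zero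
  have h4 := smul_right_injective (Matrix (Fin 2) (Fin 2) ℤ) hq0 h3
  have h5 : ε₂ * Gs = Gs * δ := by
    apply Subtype.ext
    apply Subtype.ext
    rw [Subgroup.coe_mul, Subgroup.coe_mul, Matrix.SpecialLinearGroup.coe_mul,
      Matrix.SpecialLinearGroup.coe_mul]
    exact h4
  have h6 : ε₂ = Gs * δ * Gs⁻¹ := eq_mul_inv_of_mul_eq h5
  rw [h6, ofMul_mul, ofMul_mul, ofMul_inv, map_add, map_add, map_neg]
  abel

end Sys

section End

variable (p : ℕ) [hp : Fact p.Prime] (N' q : ℕ) [NeZero N'] [hq : Fact q.Prime] (h : ¬ q ∣ N')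

/-- **the Atkin–Lehner involution on the Tate module** -/
noncomputable def t4gW :
    Module.End ℤ_[p] ↥(parabolicHoms ℤ_[p] (Gamma0 (N' * q * q)) ℤ_[p]) :=
  (t4gSysW N' q h).homPar ℤ_[p] ℤ_[p]

theorem t4gW_coe (x : ↥(parabolicHoms ℤ_[p] (Gamma0 (N' * q * q)) ℤ_[p])) :
    ((t4gW p N' q h x : ↥(parabolicHoms ℤ_[p] (Gamma0 (N' * q * q)) ℤ_[p])) :
      Additive (Gamma0 (N' * q * q)) →+ ℤ_[p])
      = (t4gSysW N' q h).hom ℤ_[p] (x : Additive (Gamma0 (N' * q * q)) →+ ℤ_[p]) := rfl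

theorem t4gW_mul_self : t4gW p N' q h * t4gW p N' q h = 1 := by
  refine LinearMap.ext fun x => ?_
  apply Subtype.ext
  rw [Module.End.mul_apply, t4gW_coe, t4gW_coe, t4gSysW_hom_hom]
  rfl

theorem t4gW_t4gW (x : ↥(parabolicHoms ℤ_[p] (Gamma0 (N' * q * q)) ℤ_[p])) :
    t4gW p N' q h (t4gW p N' q h x) = x := by
  have := congrArg (fun f => f x) (t4gW_mul_self p N' q h)
  exact this

/-- compatibility with the tower -/
theorem t4gW_ι (k : ℕ) (x : ↥(parabolicHoms ℤ_[p] (Gamma0 (N' * q * q)) ℤ_[p])) :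
    (tdmTowerN p (N' * q * q)).ι k (t4gW p N' q h x)
      = MonoidHom.toAdditive ((t4gSysW N' q h).homX (p ^ k)) ((tdmTowerN p (N' * q * q)).ι k x) :=
  tdm_ι_hom p (t4gSysW N' q h) k x _ (t4gW_coe p N' q h x)

end End

section WT

variable (N' q : ℕ) [NeZero N'] [hq : Fact q.Prime] (h : ¬ q ∣ N')

include h in
/-- conjugation by `W_q` is surjective on `Γ₀(N' q)`: `g W = W g₀` -/
theorem t4g_W_surj (g : Gamma0 (N' * q * q)) :
    ∃ g₀ : Gamma0 (N' * q * q),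
      ((g : SL(2, ℤ)) : Matrix (Fin 2) (Fin 2) ℤ) * t2wMat N' (q * q) (t2wA N' (q * q)) (t2wC N' (q * q))
        = t2wMat N' (q * q) (t2wA N' (q * q)) (t2wC N' (q * q)) * ((g₀ : SL(2, ℤ)) : Matrix (Fin 2) (Fin 2) ℤ) := by
  set S := t4gSysW N' q h with hS
  set W := t2wMat N' (q * q) (t2wA N' (q * q)) (t2wC N' (q * q)) with hW
  obtain ⟨G, hG, hG10⟩ := t2f_W_sq N' (q * q) (t2wA N' (q * q)) (t2wC N' (q * q)) (t4g_bezout N' q h)
  rw [← t4g_lvl] at hG10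
  set Gs : Gamma0 (N' * q * q) := ⟨G, (tdm_mem_Gamma0_iff G).mpr hG10⟩ with hGs
  have hWdet : W.det ≠ 0 := S.det_ne_zero ()
  have hWWdet : (W * W).det ≠ 0 := by
    rw [Matrix.det_mul]; exact mul_ne_zero hWdet hWdet
  set δ₀ : Gamma0 (N' * q * q) := Gs⁻¹ * g * Gs with hδ₀
  have hrep : ∀ δ : Gamma0 (N' * q * q), W * ((δ : SL(2, ℤ)) : Matrix (Fin 2) (Fin 2) ℤ)
      = ((S.eps δ () : SL(2, ℤ)) : Matrix (Fin 2) (Fin 2) ℤ) * W := fun δ => S.rep_mul δ ()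
  have h1 : W * W * ((δ₀ : SL(2, ℤ)) : Matrix (Fin 2) (Fin 2) ℤ)
      = ((S.eps (S.eps δ₀ ()) () : SL(2, ℤ)) : Matrix (Fin 2) (Fin 2) ℤ) * (W * W) := by
    rw [Matrix.mul_assoc, hrep δ₀, ← Matrix.mul_assoc, hrep (S.eps δ₀ ()), Matrix.mul_assoc]
  have h2 : W * W * ((δ₀ : SL(2, ℤ)) : Matrix (Fin 2) (Fin 2) ℤ)
      = ((g : SL(2, ℤ)) : Matrix (Fin 2) (Fin 2) ℤ) * (W * W) := by
    have h3 : (G : Matrix (Fin 2) (Fin 2) ℤ) * ((δ₀ : SL(2, ℤ)) : Matrix (Fin 2) (Fin 2) ℤ)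
        = ((g : SL(2, ℤ)) : Matrix (Fin 2) (Fin 2) ℤ) * (G : Matrix (Fin 2) (Fin 2) ℤ) := by
      have h4 : Gs * δ₀ = g * Gs := by
        rw [hδ₀]; group
      have h5 := congrArg (fun x : Gamma0 (N' * q * q) =>
        ((x : SL(2, ℤ)) : Matrix (Fin 2) (Fin 2) ℤ)) h4
      simpa only [Subgroup.coe_mul, Matrix.SpecialLinearGroup.coe_mul] using h5
    rw [hG, Matrix.smul_mul, h3, Matrix.mul_smul]
  have h6 := tdm_mul_right_cancel hWWdet (h1.symm.trans h2)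
  refine ⟨S.eps δ₀ (), ?_⟩
  rw [← h6]
  exact (hrep (S.eps δ₀ ())).symm

variable {N' q} in
/-- `W T_i = u_i T_{τ i} W` with a permutation `τ` -/
theorem t4g_exists_tau (l : ℕ) (hl : l.Prime) (hlN : ¬ l ∣ N' * q * q) :
    ∃ (τ : Option (Fin l) ≃ Option (Fin l)) (u : Option (Fin l) → Gamma0 (N' * q * q)),
      ∀ i, (t4gSysW N' q h).rep () * (tdmSysT (N' * q * q) l hl hlN).rep i
        = ((u i : SL(2, ℤ)) : Matrix (Fin 2) (Fin 2) ℤ) * (tdmSysT (N' * q * q) l hl hlN).rep (τ i)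
          * (t4gSysW N' q h).rep () := by
  set W := t2wMat N' (q * q) (t2wA N' (q * q)) (t2wC N' (q * q)) with hW
  set T := tdmSysT (N' * q * q) l hl hlN with hT
  have hbez := t4g_bezout N' q h
  have hWdet : W.det ≠ 0 := (t4gSysW N' q h).det_ne_zero ()
  have hex : ∀ i : Option (Fin l), ∃ j : Option (Fin l), ∃ ε : Gamma0 (N' * q * q),
      W * tdmRepT l i = ((ε : SL(2, ℤ)) : Matrix (Fin 2) (Fin 2) ℤ) * tdmRepT l j * W := by
    intro i
    obtain ⟨x, y, z, hi, hxz⟩ : ∃ x y z : ℤ, tdmRepT l i = !![x, y; 0, z] ∧ x * z = l := by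
      rcases i with _ | b
      · exact ⟨l, 0, 1, rfl, mul_one _⟩
      · exact ⟨1, ((b : ℕ) : ℤ), l, rfl, one_mul _⟩
    obtain ⟨X, hX, hXdet, hX10⟩ := t2f5_W_mul_tri N' (q * q) (t2wA N' (q * q)) (t2wC N' (q * q)) hbez x y z
    rw [← t4g_lvl] at hX10
    obtain ⟨j, ε, hε⟩ := t2f5_exists_rep hl hlN X (hXdet.trans hxz) hX10
    exact ⟨j, ε, by rw [hi, hX, hε]⟩
  choose τ₀ u hu using hex
  have hinj : Function.Injective τ₀ := by
    intro i i' hii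
    obtain ⟨g₀, hg₀⟩ := t4g_W_surj N' q h (u i * (u i')⁻¹)
    have h1 : W * tdmRepT l i
        = W * (((g₀ : SL(2, ℤ)) : Matrix (Fin 2) (Fin 2) ℤ) * tdmRepT l i') := by
      rw [← Matrix.mul_assoc, ← hg₀, Matrix.mul_assoc, hu i', hu i, hii, Subgroup.coe_mul,
        Matrix.SpecialLinearGroup.coe_mul]
      simp only [← Matrix.mul_assoc]
      congr 2
      rw [Matrix.mul_assoc, ← Matrix.SpecialLinearGroup.coe_mul, ← Subgroup.coe_mul,
        inv_mul_cancel, Subgroup.coe_one, Matrix.SpecialLinearGroup.coe_one, Matrix.mul_one]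
    have h2 := tdm_mul_left_cancel hWdet h1
    have h3 : (((1 : Gamma0 (N' * q * q)) : SL(2, ℤ)) : Matrix (Fin 2) (Fin 2) ℤ) * T.rep i
        = ((g₀ : SL(2, ℤ)) : Matrix (Fin 2) (Fin 2) ℤ) * T.rep i' := by
      rw [Subgroup.coe_one, Matrix.SpecialLinearGroup.coe_one, Matrix.one_mul]
      exact h2
    exact (t2f5_eq_of_mul_rep_eq T h3).1
  refine ⟨Equiv.ofBijective τ₀ (Finite.injective_iff_bijective.mp hinj), u, fun i => ?_⟩
  exact hu i

/-- `w_q` commutes with `T_l` on `Hom(Γ₀(N' q), A)` -/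
theorem t4g_W_T_comm (l : ℕ) (hl : l.Prime) (hlN : ¬ l ∣ N' * q * q) {A : Type*} [AddCommGroup A]
    (φ : Additive (Gamma0 (N' * q * q)) →+ A) :
    (tdmSysT (N' * q * q) l hl hlN).hom A ((t4gSysW N' q h).hom A φ)
      = (t4gSysW N' q h).hom A ((tdmSysT (N' * q * q) l hl hlN).hom A φ) := by
  obtain ⟨τ, u, hu⟩ := t4g_exists_tau h l hl hlN
  exact t2f5_hom_comm _ _ τ u hu φ

end WT

/-- **(WT) for `W_{q²}`**: `w` commutes with `T_l` on the Tate module -/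
theorem t4g_WT (p : ℕ) [Fact p.Prime] (N' q : ℕ) [NeZero N'] [Fact q.Prime] (h : ¬ q ∣ N')
    [NeZero (N' * q * q)] (l : ℕ) (hl : l.Prime) (hlN : ¬ l ∣ N' * q * q) :
    t4gW p N' q h * tdmHeckeP p (N' * q * q) (CuspForm.heckeAlgebra.T hl hlN (Set.notMem_empty l))
      = tdmHeckeP p (N' * q * q) (CuspForm.heckeAlgebra.T hl hlN (Set.notMem_empty l))
        * t4gW p N' q h := by
  refine LinearMap.ext fun x => ?_
  apply Subtype.ext
  rw [Module.End.mul_apply, Module.End.mul_apply, t4gW_coe, tdmHeckeP_T, tdmHeckeP_T, t4gW_coe]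
  exact (t4g_W_T_comm N' q h l hl hlN _).symm

end Fermat.Agent.T4
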