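/-
T4 (S36), S36-G (helper4), part 2: **newness kills `U_q` when `q² ∣ N`**.

For `N = N' q` with `q ∣ N'`: if the eigencharacter `lam` of level `N` does not occur at level `N'`
(`T2fNewAt N N' lam`), then `U_q v = 0` for every simultaneous eigenvector `v` of the `T_l`, `l ∤ N`,
with eigenvalues `lam (T_l)` (`U_q = res ∘ cor_U`, and `cor_U v` would be an eigenvector at level
`N'`; argument of helper1's `t2f_P3`).
-/
import Mathlib
import Fermat.Agent.Lib.T4.G.CorU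
import Fermat.Agent.Lib.T2.F.NewAt

set_option autoImplicit false
set_option linter.unusedSectionVars false
set_option linter.unusedVariables false
set_option linter.style.haveILetI false

open scoped TensorProduct
open Matrix MatrixGroups CongruenceSubgroup Fermat.Agent.T1 Fermat.Agent.T2 ModularCurve
  Fermat.Agent.S24Lib ModularCurve.Period CuspForm

namespace Fermat.Agent.T4

section Maps

variable (p : ℕ) [hp : Fact p.Prime] (N' q : ℕ) [NeZero N'] [hq : Fact q.Prime] (hqN' : q ∣ N')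

/-- the transfer `TT(N' q) → TT(N')` of the `U_q`-representatives -/
noncomputable def t4gCorUP : ↥(parabolicHoms ℤ_[p] (Gamma0 (N' * q)) ℤ_[p])
    →ₗ[ℤ_[p]] ↥(parabolicHoms ℤ_[p] (Gamma0 N') ℤ_[p]) :=
  (t4gSysCU N' q hqN').corPar ℤ_[p] ℤ_[p]

/-- the genuine transfer `TT(N' q) → TT(N')` -/
noncomputable def t4gCorAP : ↥(parabolicHoms ℤ_[p] (Gamma0 (N' * q)) ℤ_[p])
    →ₗ[ℤ_[p]] ↥(parabolicHoms ℤ_[p] (Gamma0 N') ℤ_[p]) :=
  (t4gSysCA N' q hqN').corPar ℤ_[p] ℤ_[p]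

/-- `res ∘ cor_U = U_q` on the Tate module -/
theorem t4g_resP_corUP [NeZero (N' * q)] :
    (t2fResP p N' q) ∘ₗ (t4gCorUP p N' q hqN')
      = tdmHeckeP p (N' * q) (heckeAlgebra.U hq.out (Dvd.intro_left N' rfl)
          (Set.notMem_empty q)) := by
  refine LinearMap.ext fun x => ?_
  apply Subtype.ext
  rw [LinearMap.comp_apply, tdmHeckeP_U]
  show t2fRes (t2f5_Gamma0_le N' q) ℤ_[p] ((t4gSysCU N' q hqN').cor ℤ_[p]
    (x : Additive (Gamma0 (N' * q)) →+ ℤ_[p])) = _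
  rw [← t4g_U_eq_res_corU]

/-- `cor_A ∘ res = q` on the Tate module -/
theorem t4g_corAP_resP :
    (t4gCorAP p N' q hqN') ∘ₗ (t2fResP p N' q) = ((q : ℕ) : ℤ_[p]) • LinearMap.id := by
  refine LinearMap.ext fun x => ?_
  apply Subtype.ext
  rw [LinearMap.comp_apply, LinearMap.smul_apply, LinearMap.id_apply]
  show (t4gSysCA N' q hqN').cor ℤ_[p] (t2fRes (t2f5_Gamma0_le N' q) ℤ_[p]
    (x : Additive (Gamma0 N') →+ ℤ_[p])) = _
  rw [t4g_corA_res, Submodule.coe_smul, Nat.cast_smul_eq_nsmul]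

end Maps

/-- **newness kills `U_q`** (`q ∣ N'`, level `N' q`) -/
theorem t4g_Uq_eq_zero (p : ℕ) [Fact p.Prime] (N' q : ℕ) [NeZero N'] [hq : Fact q.Prime]
    (hqN' : q ∣ N') [NeZero (N' * q)]
    (𝒪 : Type) [CommRing 𝒪] [IsDomain 𝒪] [CharZero 𝒪] [Algebra ℤ_[p] 𝒪]
    (lam : CuspForm.heckeAlgebra (N' * q) 2 (∅ : Set ℕ) →+* 𝒪)
    (hnew : T2fNewAt (N' * q) N' lam)
    (v : 𝒪 ⊗[ℤ_[p]] ↥(parabolicHoms ℤ_[p] (Gamma0 (N' * q)) ℤ_[p]))
    (hv : ∀ (l : ℕ) (hl : l.Prime) (hlN : ¬ l ∣ N' * q),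
      (tdmHeckeP p (N' * q)
          (CuspForm.heckeAlgebra.T hl hlN (Set.notMem_empty l))).baseChange 𝒪 v
        = lam (CuspForm.heckeAlgebra.T hl hlN (Set.notMem_empty l)) • v) :
    (tdmHeckeP p (N' * q) (CuspForm.heckeAlgebra.U hq.out (Dvd.intro_left N' rfl)
      (Set.notMem_empty q))).baseChange 𝒪 v = 0 := by
  classical
  -- notation
  set TT := ↥(parabolicHoms ℤ_[p] (Gamma0 (N' * q)) ℤ_[p]) with hTT
  set TT' := ↥(parabolicHoms ℤ_[p] (Gamma0 N') ℤ_[p]) with hTT'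
  set Uq := tdmHeckeP p (N' * q) (heckeAlgebra.U hq.out (Dvd.intro_left N' rfl)
    (Set.notMem_empty q)) with hUq
  set R := (t2fResP p N' q).baseChange 𝒪 with hR
  set C := (t4gCorUP p N' q hqN').baseChange 𝒪 with hC
  set CA := (t4gCorAP p N' q hqN').baseChange 𝒪 with hCA
  -- `R ∘ C = U_q`
  have hRC : ∀ z, R (C z) = Uq.baseChange 𝒪 z := by
    intro z
    have h1 := congrArg (fun f => (f.baseChange 𝒪) z) (t4g_resP_corUP p N' q hqN')
    simp only [LinearMap.baseChange_comp, LinearMap.comp_apply] at h1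
    rw [hR, hC, h1]
  -- `CA ∘ R = q`
  have hCR : ∀ z, CA (R z) = q • z := by
    intro z
    have h1 := congrArg (fun f => (f.baseChange 𝒪) z) (t4g_corAP_resP p N' q hqN')
    simp only [LinearMap.baseChange_comp, LinearMap.comp_apply] at h1
    rw [hR, hCA, h1, LinearMap.baseChange_smul, LinearMap.smul_apply, LinearMap.baseChange_id,
      LinearMap.id_apply, Nat.cast_smul_eq_nsmul]
  -- torsion-freeness
  haveI : Module.Free 𝒪 (𝒪 ⊗[ℤ_[p]] TT') := inferInstance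
  haveI : Module.IsTorsionFree 𝒪 (𝒪 ⊗[ℤ_[p]] TT') := inferInstance
  have hq1 : ((q : ℕ) : 𝒪) ≠ 0 := Nat.cast_ne_zero.mpr hq.out.ne_zero
  have hRinj : ∀ z, R z = 0 → z = 0 := by
    intro z hz
    have h1 := hCR z
    rw [hz, map_zero, ← Nat.cast_smul_eq_nsmul 𝒪] at h1
    rcases smul_eq_zero.mp h1.symm with h2 | h2
    · exact absurd h2 hq1
    · exact h2
  -- the vector at level `N'`
  set x := C v with hx
  rw [← hRC v]
  by_cases hx0 : x = 0
  · rw [← hx, hx0, map_zero]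
  exfalso
  -- `x` is an eigenvector of the `T_l` at level `N'`
  have hxT : ∀ (l : ℕ) (hl : l.Prime) (hlN : ¬ l ∣ N' * q) (hlN' : ¬ l ∣ N'),
      (tdmHeckeP p N' (heckeAlgebra.T hl hlN' (Set.notMem_empty l))).baseChange 𝒪 x
        = lam (heckeAlgebra.T hl hlN (Set.notMem_empty l)) • x := by
    intro l hl hlN hlN'
    set Tl := tdmHeckeP p (N' * q) (heckeAlgebra.T hl hlN (Set.notMem_empty l)) with hTl
    set Tl' := tdmHeckeP p N' (heckeAlgebra.T hl hlN' (Set.notMem_empty l)) with hTl'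
    set c := lam (heckeAlgebra.T hl hlN (Set.notMem_empty l)) with hc
    -- `R ∘ T' = T ∘ R`
    have h1 : ∀ z, R (Tl'.baseChange 𝒪 z) = Tl.baseChange 𝒪 (R z) := by
      intro z
      have h2 := congrArg (fun f => (f.baseChange 𝒪) z) (t2f5_resP_T p N' q l hl hlN hlN')
      simpa only [LinearMap.baseChange_comp, LinearMap.comp_apply] using h2
    -- `T` commutes with `U_q`
    have h3 : Tl * Uq = Uq * Tl := by
      rw [hTl, hUq, ← map_mul, ← map_mul]
      exact congrArg _ (mul_comm _ _)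
    have h4 : ∀ z, Tl.baseChange 𝒪 (Uq.baseChange 𝒪 z) = Uq.baseChange 𝒪 (Tl.baseChange 𝒪 z) := by
      intro z
      have h5 := congrArg (fun f : Module.End ℤ_[p] TT => (f.baseChange 𝒪) z) h3
      simpa only [Module.End.mul_eq_comp, LinearMap.baseChange_comp, LinearMap.comp_apply]
        using h5
    rw [← sub_eq_zero]
    apply hRinj
    rw [map_sub, h1, hx, hRC, h4, hv l hl hlN, map_smul, map_smul, hRC, sub_self]
  -- the eigencharacter of `x`
  set S : Set ℕ := {r : ℕ | r ∣ N' * q} with hS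
  let inc : heckeAlgebra N' 2 S →+* heckeAlgebra N' 2 (∅ : Set ℕ) :=
    (Subalgebra.inclusion (heckeAlgebra_mono (N := N') (k := 2) (Set.empty_subset S))).toRingHom
  let act : heckeAlgebra N' 2 S →+* Module.End 𝒪 (𝒪 ⊗[ℤ_[p]] TT') :=
    ((Module.End.baseChangeHom ℤ_[p] 𝒪 TT').toRingHom.comp (tdmHeckeP p N')).comp inc
  have hact : ∀ t, act t = (tdmHeckeP p N' (inc t)).baseChange 𝒪 := fun t => rfl
  have hgen : ∀ (t : Module.End ℂ (CuspForm (Gamma0 N') 2)) (ht : t ∈ heckeGenerators N' 2 S),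
      ∃ c : 𝒪, act ⟨t, Algebra.subset_adjoin ht⟩ x = c • x := by
    rintro t (⟨l, hl, hlN', hlS, rfl⟩ | ⟨q', hq'N, hq', hq'S, rfl⟩)
    · have hlN : ¬ l ∣ N' * q := hlS
      exact ⟨_, hxT l hl hlN hlN'⟩
    · exact absurd (show q' ∈ S from Dvd.dvd.mul_right hq'N q) hq'S
  obtain ⟨χ, hχ⟩ : ∃ χ : heckeAlgebra N' 2 S →+* 𝒪, ∀ t, act t x = χ t • x :=
    t2fn_exists_eigenChar (heckeGenerators N' 2 S) act x hx0 hgen
  apply hnew
  refine ⟨χ, fun l hl hlN hlN' => ?_⟩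
  apply t2fn_eigenvalue_unique hx0
  rw [← hχ]
  exact hxT l hl hlN hlN'

end Fermat.Agent.T4
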