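/-
T4 (S36), S36-G (helper4), part 4: **the Tate-module form of the interface `T4New`**.

(`T4gWCompat wU`, `T4New wU` are in `Lib/T4/Defs.lean`.)
* `t4g_X_new`: (NEW) on the character groups `X_m`;
* `t4g_TT_new`: (NEW) on the Tate module: `c ∈ TT^{I_q}`, `U_q c = 0`, `U_q w c = 0` ⟹ `c = 0`.
-/
import Mathlib
import Fermat.Agent.Lib.T4.G.NewU
import Fermat.Agent.Lib.T4.Defs
import Fermat.Agent.Lib.T2.F.TinfOps

set_option autoImplicit false
set_option linter.unusedSectionVars false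
set_option linter.unusedVariables false
set_option linter.style.haveILetI false

open scoped TensorProduct
open Matrix MatrixGroups CongruenceSubgroup Fermat.Agent.T1 Fermat.Agent.T2 ModularCurve
  Fermat.Agent.S24Lib ModularCurve.Period

namespace Fermat.Agent.T4

local notation "Kbar" => AlgebraicClosure ℚ
local notation "GQ" => (AlgebraicClosure ℚ ≃ₐ[ℚ] AlgebraicClosure ℚ)

section X

variable (wU : T4gWType) (hw : T4gWCompat wU) (hnew : T4New wU)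
  (N'' q : ℕ) [NeZero N''] [hq : Fact q.Prime] (h : ¬ q ∣ N'') [NeZero (N'' * q * q)]
  {DK : TdmDict Kbar (N'' * q * q)} {DC : TdmDictC (N'' * q * q)}
  (E : TdmDescent (N'' * q * q) DK DC) (hDK : DK.toMer = KMod.toMer Kbar (N'' * q * q))

theorem t4g_q_dvd : q ∣ N'' * q * q := Dvd.intro_left (N'' * q) rfl

include hw hnew hDK in
/-- **(NEW) on the character groups** -/
theorem t4g_X_new (A : ValuationSubring Kbar) (hA : A.LiesOverPrime q) {m : ℕ}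
    (hmq : Nat.Coprime m q) (hm : m ≠ 0) (χ : tdmX (N'' * q * q) m)
    (hI : ∀ σ ∈ A.inertiaSubgroupIn ℚ, E.galX hm σ χ = χ)
    (hU : (tdmSysU (N'' * q * q) q (t4g_q_dvd N'' q) hq.out.ne_zero).homX m χ = 1)
    (hUW : (tdmSysU (N'' * q * q) q (t4g_q_dvd N'' q) hq.out.ne_zero).homX m
      ((t4gSysW N'' q h).homX m χ) = 1) :
    χ ^ ((q ^ 2 - 1) ^ 2) = 1 := by
  obtain ⟨hwfn, hwsig⟩ := hw N'' q h
  obtain ⟨y, rfl⟩ := E.psi_surjective hm χ
  -- inertia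
  have h1 : ∀ σ ∈ A.inertiaSubgroupIn ℚ, ∃ t : (↥(modularFunctionFieldBar (N'' * q * q)))ˣ,
      tkrSig (N'' * q * q) σ y.1 = y.1 * t ^ m := by
    intro σ hσ
    have e : DK.psi hm ((tdmSigW (N'' * q * q) m σ y) * y⁻¹) = 1 := by
      rw [map_mul, map_inv, ← E.galX_psi, hI σ hσ]
      exact mul_inv_cancel _
    obtain ⟨t, ht⟩ := mem_tdmPowSub.mp (E.psi_ker hm _ e)
    refine ⟨t, ?_⟩
    rw [ht]
    show tkrSig (N'' * q * q) σ y.1 = y.1 * (tkrSig (N'' * q * q) σ y.1 * (y.1)⁻¹)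
    rw [mul_comm (tkrSig (N'' * q * q) σ y.1), ← mul_assoc, mul_inv_cancel, one_mul]
  -- `U_q`
  obtain ⟨hUy, hUpsi⟩ := DK.psi_op (tdmSysU (N'' * q * q) q (t4g_q_dvd N'' q) hq.out.ne_zero) hm
    (tkrHeckeUUnits (N'' * q * q) q) (DK.fn_heckeU hDK q hq.out (t4g_q_dvd N'' q)) y
  have h2 : ∃ t : (↥(modularFunctionFieldBar (N'' * q * q)))ˣ,
      tkrHeckeUUnits (N'' * q * q) q y.1 = t ^ m := by
    have e : DK.psi hm ⟨tkrHeckeUUnits (N'' * q * q) q y.1, hUy⟩ = 1 := by rw [hUpsi, hU]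
    obtain ⟨t, ht⟩ := mem_tdmPowSub.mp (E.psi_ker hm _ e)
    exact ⟨t, ht.symm⟩
  -- `U_q ∘ w`
  obtain ⟨hWy, hWpsi⟩ := DK.psi_op (t4gSysW N'' q h) hm (wU N'' q h) (hwfn DK hDK) y
  obtain ⟨hUWy, hUWpsi⟩ := DK.psi_op (tdmSysU (N'' * q * q) q (t4g_q_dvd N'' q) hq.out.ne_zero) hm
    (tkrHeckeUUnits (N'' * q * q) q) (DK.fn_heckeU hDK q hq.out (t4g_q_dvd N'' q))
    ⟨wU N'' q h y.1, hWy⟩
  have h3 : ∃ t : (↥(modularFunctionFieldBar (N'' * q * q)))ˣ,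
      tkrHeckeUUnits (N'' * q * q) q (wU N'' q h y.1) = t ^ m := by
    have e : DK.psi hm ⟨tkrHeckeUUnits (N'' * q * q) q (wU N'' q h y.1), hUWy⟩ = 1 := by
      rw [hUWpsi, hWpsi, hUW]
    obtain ⟨t, ht⟩ := mem_tdmPowSub.mp (E.psi_ker hm _ e)
    exact ⟨t, ht.symm⟩
  obtain ⟨t, ht⟩ := hnew N'' q h A hA m hmq hm y.1 y.2 h1 h2 h3
  rw [← map_pow]
  exact DK.psi_pow hm (y ^ ((q ^ 2 - 1) ^ 2)) t ht

end X

section TT

variable (wU : T4gWType) (hw : T4gWCompat wU) (hnew : T4New wU)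
  (p : ℕ) [hp : Fact p.Prime] (N'' q : ℕ) [NeZero N''] [hq : Fact q.Prime] (h : ¬ q ∣ N'')
  [NeZero (N'' * q * q)]
  {DK : TdmDict Kbar (N'' * q * q)} {DC : TdmDictC (N'' * q * q)}
  (E : TdmDescent (N'' * q * q) DK DC) (hDK : DK.toMer = KMod.toMer Kbar (N'' * q * q))

include hw hnew hDK in
/-- **(NEW) on the Tate module**: an inertia-invariant element which is killed by `U_q` and by
`U_q ∘ w_{q²}` is zero -/
theorem t4g_TT_new (hqp : q ≠ p) (A : ValuationSubring Kbar) (hA : A.LiesOverPrime q)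
    (c : ↥(parabolicHoms ℤ_[p] (Gamma0 (N'' * q * q)) ℤ_[p]))
    (hI : ∀ σ ∈ A.inertiaSubgroupIn ℚ, t2fGal p E σ c = c)
    (hU : tdmHeckeP p (N'' * q * q) (CuspForm.heckeAlgebra.U hq.out (t4g_q_dvd N'' q)
      (Set.notMem_empty q)) c = 0)
    (hUW : tdmHeckeP p (N'' * q * q) (CuspForm.heckeAlgebra.U hq.out (t4g_q_dvd N'' q)
      (Set.notMem_empty q)) (t4gW p N'' q h c) = 0) :
    c = 0 := by
  set D := tdmTowerN p (N'' * q * q) with hD
  set US := tdmSysU (N'' * q * q) q (t4g_q_dvd N'' q) hq.out.ne_zero with hUS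
  have hιU : ∀ (k : ℕ) (x : ↥(parabolicHoms ℤ_[p] (Gamma0 (N'' * q * q)) ℤ_[p])),
      Additive.toMul (D.ι k (tdmHeckeP p (N'' * q * q) (CuspForm.heckeAlgebra.U hq.out
        (t4g_q_dvd N'' q) (Set.notMem_empty q)) x))
        = US.homX (p ^ k) (Additive.toMul (D.ι k x)) := by
    intro k x
    rw [tdm_ι_hom p US k x _ (tdmHeckeP_U p (N'' * q * q) q hq.out (t4g_q_dvd N'' q) x)]
    rfl
  have key : ∀ k : ℕ, D.ι k (((q ^ 2 - 1) ^ 2 : ℕ) • c) = 0 := by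
    intro k
    have hm := tdm_prime_pow_ne_zero p k
    have hcop : Nat.Coprime (p ^ k) q :=
      Nat.Coprime.pow_left k ((Nat.coprime_primes hp.out hq.out).mpr hqp.symm)
    set χ : ↥(tdmX (N'' * q * q) (p ^ k)) := Additive.toMul (D.ι k c) with hχ
    have h1 : ∀ σ ∈ A.inertiaSubgroupIn ℚ, E.galX hm σ χ = χ := by
      intro σ hσ
      rw [hχ, ← t2fGal_ι_toMul, hI σ hσ]
    have h2 : US.homX (p ^ k) χ = 1 := by
      rw [hχ, ← hιU, hU, map_zero]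
      rfl
    have h3 : US.homX (p ^ k) ((t4gSysW N'' q h).homX (p ^ k) χ) = 1 := by
      have e : (t4gSysW N'' q h).homX (p ^ k) χ = Additive.toMul (D.ι k (t4gW p N'' q h c)) := by
        rw [t4gW_ι]
        rfl
      rw [e, ← hιU, hUW, map_zero]
      rfl
    have h4 := t4g_X_new wU hw hnew N'' q h E hDK A hA hcop hm χ h1 h2 h3
    rw [map_nsmul]
    apply Additive.toMul.injective
    rw [toMul_nsmul, ← hχ, h4]
    rfl
  have h0 : ((q ^ 2 - 1) ^ 2 : ℕ) • c = 0 := D.eq_zero key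
  have hQ : ((q ^ 2 - 1) ^ 2 : ℕ) ≠ 0 := by
    have : 2 ≤ q := hq.out.two_le
    have h2 : 1 < q ^ 2 := Nat.one_lt_pow two_ne_zero this
    exact pow_ne_zero 2 (Nat.sub_ne_zero_of_lt h2)
  rw [← Nat.cast_smul_eq_nsmul ℤ_[p]] at h0
  rcases smul_eq_zero.mp h0 with h5 | h5
  · exact absurd h5 (Nat.cast_ne_zero.mpr hQ)
  · exact h5

end TT

end Fermat.Agent.T4
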