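/-
T4 (S36), S36-G (helper4), part 5: **coefficient extraction** in `𝒪 ⊗[R] M` over a principal ideal
domain `R`, `𝒪` torsion-free, `M` finite free:
every `v` is `∑ e i ⊗ c i` with `e` linearly independent over `R`, and then every linear
condition `(f ⊗ 1) v = 0` (`f : M → M'`, `M'` flat) descends to the coefficients `c i`.
-/
import Mathlib

set_option autoImplicit false
set_option linter.unusedSectionVars false
set_option linter.unusedVariables false
set_option linter.style.haveILetI false

open scoped TensorProduct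

namespace Fermat.Agent.T4

section Extract

variable {R : Type*} [CommRing R] [IsDomain R] [IsPrincipalIdealRing R]
  {𝒪 : Type*} [AddCommGroup 𝒪] [Module R 𝒪] [Module.IsTorsionFree R 𝒪]
  {M : Type*} [AddCommGroup M] [Module R M] [Module.Free R M] [Module.Finite R M]

/-- **coefficient extraction** -/
theorem t4g_extract (v : 𝒪 ⊗[R] M) :
    ∃ (n : ℕ) (e : Fin n → 𝒪) (c : Fin n → M), LinearIndependent R e ∧
      v = ∑ i, e i ⊗ₜ[R] c i := by
  classical
  set b := Module.Free.chooseBasis R M with hb
  obtain ⟨o, ho⟩ := TensorProduct.eq_repr_basis_right b v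
  set 𝒪₀ : Submodule R 𝒪 := Submodule.span R (Set.range (o : _ → 𝒪)) with h𝒪₀
  haveI : Module.Finite R ↥𝒪₀ := Module.Finite.span_of_finite R (Set.finite_range _)
  obtain ⟨n, β⟩ := Module.basisOfFiniteTypeTorsionFree' (R := R) (M := ↥𝒪₀)
  have hmem : ∀ j, o j ∈ 𝒪₀ := fun j => Submodule.subset_span ⟨j, rfl⟩
  refine ⟨n, fun i => ((β i : ↥𝒪₀) : 𝒪), fun i => ∑ j, (β.repr ⟨o j, hmem j⟩ i) • b j, ?_, ?_⟩
  · exact β.linearIndependent.map' 𝒪₀.subtype (Submodule.ker_subtype _)
  · have h1 : ∀ j, o j = ∑ i, (β.repr ⟨o j, hmem j⟩ i) • ((β i : ↥𝒪₀) : 𝒪) := by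
      intro j
      have := congrArg (fun x : ↥𝒪₀ => (x : 𝒪)) (β.sum_repr ⟨o j, hmem j⟩)
      simp only [Submodule.coe_sum, Submodule.coe_smul] at this
      exact this.symm
    rw [← ho, Finsupp.sum_fintype o (fun i m => m ⊗ₜ[R] b i) (fun i => TensorProduct.zero_tmul _ _)]
    simp only [TensorProduct.tmul_sum, TensorProduct.tmul_smul]
    rw [Finset.sum_comm]
    refine Finset.sum_congr rfl fun j _ => ?_
    conv_lhs => rw [h1 j]
    rw [TensorProduct.sum_tmul]
    refine Finset.sum_congr rfl fun i _ => ?_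
    rw [TensorProduct.smul_tmul']

end Extract

section Indep

variable {R : Type*} [CommRing R]
  {𝒪 : Type*} [AddCommGroup 𝒪] [Module R 𝒪]
  {M' : Type*} [AddCommGroup M'] [Module R M'] [Module.Flat R M']

/-- linear independence of the first factors allows to read off the second factors -/
theorem t4g_tmul_eq_zero {n : ℕ} {e : Fin n → 𝒪} (he : LinearIndependent R e) (x : Fin n → M')
    (h : ∑ i, e i ⊗ₜ[R] x i = 0) : ∀ i, x i = 0 := by
  classical
  set ε : (Fin n → R) →ₗ[R] 𝒪 := Fintype.linearCombination R e with hε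
  have hεinj : Function.Injective ε := he.fintypeLinearCombination_injective
  have hinj := Module.Flat.rTensor_preserves_injective_linearMap (M := M') ε hεinj
  set ξ : (Fin n → R) ⊗[R] M' := ∑ i, (Pi.single i (1 : R)) ⊗ₜ[R] x i with hξ
  have h1 : ε.rTensor M' ξ = 0 := by
    rw [hξ, map_sum, ← h]
    refine Finset.sum_congr rfl fun i _ => ?_
    rw [LinearMap.rTensor_tmul, hε, Fintype.linearCombination_apply_single, one_smul]
  have h2 : ξ = 0 := hinj (by rw [h1, map_zero])
  intro i
  have h3 := congrArg (fun z => TensorProduct.lid R M'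
    ((LinearMap.proj (R := R) (φ := fun _ : Fin n => R) i).rTensor M' z)) h2
  simp only [hξ, map_sum, LinearMap.rTensor_tmul, LinearMap.proj_apply, TensorProduct.lid_tmul,
    map_zero] at h3
  rw [Finset.sum_eq_single i] at h3
  · simpa using h3
  · intro j _ hji
    rw [Pi.single_eq_of_ne (Ne.symm hji), zero_smul]
  · intro hi
    exact absurd (Finset.mem_univ i) hi

end Indep

end Fermat.Agent.T4
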