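/-
T4 (S36), S36-G (helper4), part 6: **(N9) from (NEW)**: for `q² ∥ N`, `q ≠ p`, the eigen-lattice of an
eigencharacter which is new at `q` contains no non-zero vector fixed by an inertia group at `q`.

`v ∈ 𝒪 ⊗ TT` in the `lam`-eigen-lattice, fixed by `I_q`.  Newness gives `U_q v = 0` and
`U_q (w v) = 0` (`w = W_{q²}` commutes with the `T_l`); writing `v = ∑ e_i ⊗ c_i` with `e_i`
linearly independent over `ℤ_p`, the three conditions descend to the `c_i ∈ TT`, and `t4g_TT_new`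
gives `c_i = 0`.
-/
import Mathlib
import Fermat.Agent.Lib.T4.G.Core
import Fermat.Agent.Lib.T4.G.Extract
import Fermat.Agent.Lib.T4.Glue.Defs
import Fermat.Agent.Lib.T2.F.H8

set_option autoImplicit false
set_option linter.unusedSectionVars false
set_option linter.unusedVariables false
set_option linter.style.haveILetI false

open scoped TensorProduct
open Matrix MatrixGroups CongruenceSubgroup Fermat.Agent.T1 Fermat.Agent.T2 ModularCurve
  Fermat.Agent.S24Lib ModularCurve.Period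

namespace Fermat.Agent.T4

local notation "Kbar" => AlgebraicClosure ℚ
local notation "GQ" => (AlgebraicClosure ℚ ≃ₐ[ℚ] AlgebraicClosure ℚ)

section NoInv

variable (wU : T4gWType) (hw : T4gWCompat wU) (hnew : T4New wU)
  (p : ℕ) [hp : Fact p.Prime] (N'' q : ℕ) [NeZero N''] [hq : Fact q.Prime] (h : ¬ q ∣ N'')
  [NeZero (N'' * q)] [NeZero (N'' * q * q)]
  {DK : TdmDict Kbar (N'' * q * q)} {DC : TdmDictC (N'' * q * q)}
  (E : TdmDescent (N'' * q * q) DK DC) (hDK : DK.toMer = KMod.toMer Kbar (N'' * q * q))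

include hw hnew hDK h in
/-- **(N9) at the level `N'' q q`** -/
theorem t4g_noInv (hqp : q ≠ p)
    (𝒪 : Type) [CommRing 𝒪] [IsDomain 𝒪] [CharZero 𝒪] [Algebra ℤ_[p] 𝒪]
    (lam : CuspForm.heckeAlgebra (N'' * q * q) 2 (∅ : Set ℕ) →+* 𝒪)
    (hlam : T2fNewAt (N'' * q * q) (N'' * q) lam)
    (A : ValuationSubring Kbar) (hA : A.LiesOverPrime q)
    (v : 𝒪 ⊗[ℤ_[p]] ↥(parabolicHoms ℤ_[p] (Gamma0 (N'' * q * q)) ℤ_[p]))
    (hv : v ∈ teEigen (tdmHeckeP p (N'' * q * q)) lam)
    (hI : ∀ σ ∈ A.inertiaSubgroupIn ℚ, (t2fGal p E σ).baseChange 𝒪 v = v) : v = 0 := by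
  classical
  set TT := ↥(parabolicHoms ℤ_[p] (Gamma0 (N'' * q * q)) ℤ_[p]) with hTT
  set Uq : Module.End ℤ_[p] TT := tdmHeckeP p (N'' * q * q)
    (CuspForm.heckeAlgebra.U hq.out (t4g_q_dvd N'' q) (Set.notMem_empty q)) with hUq
  set W : Module.End ℤ_[p] TT := t4gW p N'' q h with hW
  rw [mem_teEigen] at hv
  have hvT : ∀ (l : ℕ) (hl : l.Prime) (hlN : ¬ l ∣ N'' * q * q),
      (tdmHeckeP p (N'' * q * q)
          (CuspForm.heckeAlgebra.T hl hlN (Set.notMem_empty l))).baseChange 𝒪 v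
        = lam (CuspForm.heckeAlgebra.T hl hlN (Set.notMem_empty l)) • v := fun l hl hlN => hv _
  -- `U_q v = 0`
  have hU : Uq.baseChange 𝒪 v = 0 :=
    t4g_Uq_eq_zero p (N'' * q) q (Dvd.intro_left N'' rfl) 𝒪 lam hlam v hvT
  -- `w v` is an eigenvector of the `T_l`
  have hWT : ∀ (l : ℕ) (hl : l.Prime) (hlN : ¬ l ∣ N'' * q * q),
      (tdmHeckeP p (N'' * q * q)
          (CuspForm.heckeAlgebra.T hl hlN (Set.notMem_empty l))).baseChange 𝒪 (W.baseChange 𝒪 v)
        = lam (CuspForm.heckeAlgebra.T hl hlN (Set.notMem_empty l)) • W.baseChange 𝒪 v := by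
    intro l hl hlN
    have h1 := congrArg (fun f : Module.End ℤ_[p] TT => (f.baseChange 𝒪) v)
      (t4g_WT p N'' q h l hl hlN)
    simp only [Module.End.mul_eq_comp, LinearMap.baseChange_comp, LinearMap.comp_apply] at h1
    rw [← h1, hvT l hl hlN, map_smul]
  -- `U_q (w v) = 0`
  have hUW : Uq.baseChange 𝒪 (W.baseChange 𝒪 v) = 0 :=
    t4g_Uq_eq_zero p (N'' * q) q (Dvd.intro_left N'' rfl) 𝒪 lam hlam _ hWT
  -- coefficients
  haveI : Module.IsTorsionFree ℤ_[p] 𝒪 :=
    Module.isTorsionFree_iff_algebraMap_injective.mpr (t2f_algebraMap_injective p 𝒪)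
  obtain ⟨n, e, c, he, hvc⟩ := t4g_extract (R := ℤ_[p]) (𝒪 := 𝒪) (M := TT) v
  have hdesc : ∀ f : Module.End ℤ_[p] TT, f.baseChange 𝒪 v = 0 → ∀ i, f (c i) = 0 := by
    intro f hf
    apply t4g_tmul_eq_zero he
    rw [← hf, hvc, map_sum]
    refine Finset.sum_congr rfl fun i _ => ?_
    rw [LinearMap.baseChange_tmul]
  have hc0 : ∀ i, c i = 0 := by
    intro i
    apply t4g_TT_new wU hw hnew p N'' q h E hDK hqp A hA (c i)
    · intro σ hσ
      have h1 := hdesc (t2fGal p E σ - 1) (by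
        rw [LinearMap.baseChange_sub, LinearMap.sub_apply, hI σ hσ, Module.End.one_eq_id,
          LinearMap.baseChange_id, LinearMap.id_apply, sub_self]) i
      rw [LinearMap.sub_apply, Module.End.one_apply, sub_eq_zero] at h1
      exact h1
    · exact hdesc Uq hU i
    · have h1 := hdesc (Uq * W) (by
        rw [Module.End.mul_eq_comp, LinearMap.baseChange_comp, LinearMap.comp_apply, hUW]) i
      exact h1
  rw [hvc]
  refine Finset.sum_eq_zero fun i _ => ?_
  rw [hc0 i, TensorProduct.tmul_zero]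

end NoInv

end Fermat.Agent.T4
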