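/-
T4 (S36), S36-G (helper4), part 8: **the function-level `w_{q²}` of lead's T4-V2 in the interface
form** `t4gWU : T4gWType`, `t4gWU_compat : T4gWCompat t4gWU`, and
`t4g_package_of_new : T4New t4gWU → T4gPackage p N`.
-/
import Mathlib
import Fermat.Agent.Lib.T4.Defs
import Fermat.Agent.Lib.T4.Inst.ALUnits
import Fermat.Agent.Lib.T4.G.Pkg

set_option autoImplicit false
set_option linter.unusedSectionVars false
set_option linter.unusedVariables false
set_option linter.style.haveILetI false

open scoped TensorProduct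
open Matrix MatrixGroups CongruenceSubgroup Fermat.Agent.T1 Fermat.Agent.T2 ModularCurve
  Fermat.Agent.S24Lib ModularCurve.Period

namespace Fermat.Agent.T4

local notation "Kbar" => AlgebraicClosure ℚ
local notation "GQ" => (AlgebraicClosure ℚ ≃ₐ[ℚ] AlgebraicClosure ℚ)

theorem t4g_coprime (N'' q : ℕ) [hq : Fact q.Prime] (h : ¬ q ∣ N'') : Nat.Coprime (q * q) N'' := by
  have hcop1 : Nat.Coprime q N'' := (Nat.Prime.coprime_iff_not_dvd hq.out).mpr h
  exact Nat.Coprime.mul_left hcop1 hcop1

/-- lead's `w_{q²}` on units, in the interface form -/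
noncomputable def t4gWU : T4gWType := fun N'' q _ _ h _ =>
  t4wU (N'' * q * q) N'' (q * q) (t4g_lvl N'' q) (t4g_coprime N'' q h)

/-- the compatibilities of `w_{q²}` -/
theorem t4gWU_compat : T4gWCompat t4gWU := by
  intro N'' q _ _ h _
  refine ⟨fun DK hDK y => ?_, fun σ y => ?_⟩
  · rw [tdmCosetSys.prodFn_apply, Finset.univ_unique, Finset.prod_singleton]
    exact t4w_fn (N'' * q * q) N'' (q * q) (t4g_lvl N'' q) (t4g_coprime N'' q h) DK hDK
      (y : ↥(modularFunctionFieldBar (N'' * q * q)))
  · exact t4wU_sig (N'' * q * q) N'' (q * q) (t4g_lvl N'' q) (t4g_coprime N'' q h) σ y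

/-- **the Tate module package with (N9) from (NEW)** for lead's `w_{q²}` -/
theorem t4g_package_of_new (hnew : T4New t4gWU) (p : ℕ) [Fact p.Prime] (N : ℕ) [NeZero N] :
    T4gPackage p N :=
  t4g_package_all p N t4gWU t4gWU_compat hnew

end Fermat.Agent.T4
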