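/-
T4 (S36), S36-G (helper4), part 1: **the transfers for `Γ₀(N' q) ⊂ Γ₀(N')` when `q ∣ N'`** and the
factorisation `U_q = res ∘ cor_U`.

* `t4gSysCU N' q`: the two-group coset system with the representatives `[[1, j], [0, q]]` of `U_q`
  (they are permuted by right multiplication with the BIGGER group `Γ₀(N')` because `q ∣ N'`);
* `t4g_U_eq_res_corU`: `U_q = res ∘ cor_U` on `Hom(Γ₀(N' q), A)`;
* `t4gSysCA N' q`: the genuine transfer, representatives `[[1, 0], [N' j, 1]]`;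
* `t4g_corA_res`: `cor_A ∘ res = q`.
-/
import Mathlib
import Fermat.Agent.Lib.T2.F.ResCor

set_option autoImplicit false
set_option linter.unusedSectionVars false
set_option linter.unusedVariables false
set_option linter.style.haveILetI false

open Matrix MatrixGroups CongruenceSubgroup Fermat.Agent.T1 Fermat.Agent.T2 ModularCurve
  Fermat.Agent.S24Lib ModularCurve.Period

namespace Fermat.Agent.T4

/-! ### A general identity: `cor ∘ res = index` -/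

section Gen

variable {Γ Γ' : Subgroup SL(2, ℤ)} {ι : Type} [Fintype ι] (S : T2fSys₂ Γ Γ' ι) (hΓ : Γ ≤ Γ')

/-- **`cor ∘ res = card ι`** for a two-group coset system whose representatives lie in `Γ'` -/
theorem t4g_cor_res {A : Type*} [AddCommGroup A] (g : ι → Γ')
    (hg : ∀ i, S.rep i = (((g i : Γ') : SL(2, ℤ)) : Matrix (Fin 2) (Fin 2) ℤ))
    (φ : Additive Γ' →+ A) :
    S.cor A (t2fRes hΓ A φ) = Fintype.card ι • φ := by
  refine AddMonoidHom.ext fun δ' => ?_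
  obtain ⟨δ, rfl⟩ := Additive.ofMul.surjective δ'
  rw [T2fSys₂.cor_apply]
  have key : ∀ i, t2fRes hΓ A φ (Additive.ofMul (S.eps δ i))
      = (φ (Additive.ofMul (g i)) + φ (Additive.ofMul δ))
        - φ (Additive.ofMul (g (S.sigma δ i))) := by
    intro i
    rw [t2fRes_apply]
    have h1 : g i * δ = Subgroup.inclusion hΓ (S.eps δ i) * g (S.sigma δ i) := by
      apply Subtype.ext
      apply Subtype.ext
      rw [Subgroup.coe_mul, Subgroup.coe_mul, Matrix.SpecialLinearGroup.coe_mul,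
        Matrix.SpecialLinearGroup.coe_mul, ← hg, ← hg]
      exact S.rep_mul δ i
    have h2 := congrArg (fun x : Γ' => φ (Additive.ofMul x)) h1
    simp only [ofMul_mul, map_add] at h2
    rw [eq_sub_iff_add_eq]
    exact h2.symm
  rw [Finset.sum_congr rfl fun i _ => key i, Finset.sum_sub_distrib, Finset.sum_add_distrib,
    Equiv.sum_comp (S.sigma δ) (fun i => φ (Additive.ofMul (g i))),
    add_sub_cancel_left, Finset.sum_const, Finset.card_univ]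
  rfl

end Gen

section Reps

variable (N' q : ℕ) [NeZero N'] [hq : Fact q.Prime]

/-! ### The system of the `U_q`-representatives -/

theorem t4g_repU_exists (hqN' : q ∣ N') (δ : Gamma0 N') (b : Fin q) :
    ∃ j : Fin q, ∃ ε : Gamma0 (N' * q),
      tdmRepU q b * ((δ : SL(2, ℤ)) : Matrix (Fin 2) (Fin 2) ℤ)
        = ((ε : SL(2, ℤ)) : Matrix (Fin 2) (Fin 2) ℤ) * tdmRepU q j := by
  obtain ⟨hD, hN⟩ := tdm_Gamma0_data δ
  set D := ((δ : SL(2, ℤ)) : Matrix (Fin 2) (Fin 2) ℤ) with hDdef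
  obtain ⟨m, hm⟩ : (q : ℤ) ∣ D 1 0 := (Int.natCast_dvd_natCast.mpr hqN').trans hN
  have hcop : IsCoprime (D 0 0 + ((b : ℕ) : ℤ) * D 1 0) (q : ℤ) := by
    refine ⟨D 1 1, -(D 0 1 * m) - (b : ℕ) * m * D 1 1, ?_⟩
    rw [Matrix.det_fin_two] at hD
    rw [hm] at hD ⊢
    linear_combination hD
  obtain ⟨j, hj⟩ := tdm_exists_aff_sol hq.out.ne_zero hcop (D 0 1 + ((b : ℕ) : ℤ) * D 1 1)
  obtain ⟨E, hE, hE10⟩ := tdm_aff_mul_aff D hD ((b : ℕ) : ℤ) ((j : ℕ) : ℤ) hj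
  refine ⟨j, ⟨E, (tdm_mem_Gamma0_iff E).mpr ?_⟩, hE⟩
  rw [hE10]
  obtain ⟨k, hk⟩ := hN
  refine ⟨k, ?_⟩
  rw [hk]
  push_cast
  ring

/-- **the two-group coset system of the `U_q`-representatives**, `q ∣ N'` -/
noncomputable def t4gSysCU (hqN' : q ∣ N') :
    T2fSys₂ (Gamma0 (N' * q)) (Gamma0 N') (Fin q) :=
  T2fSys₂.ofInequiv (tdmRepU q)
    (fun i => by rw [tdmRepU_det]; exact_mod_cast hq.out.pos)
    (fun i j γ h => tdm_aff_inequiv i j _ h) (t4g_repU_exists N' q hqN')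

@[simp] theorem t4gSysCU_rep (hqN' : q ∣ N') :
    (t4gSysCU N' q hqN').rep = tdmRepU q := rfl

/-- **`U_q = res ∘ cor_U`** -/
theorem t4g_U_eq_res_corU (hqN' : q ∣ N') {A : Type*} [AddCommGroup A]
    (φ : Additive (Gamma0 (N' * q)) →+ A) :
    (tdmSysU (N' * q) q (Dvd.intro_left N' rfl) hq.out.ne_zero).hom A φ
      = t2fRes (t2f5_Gamma0_le N' q) A ((t4gSysCU N' q hqN').cor A φ) := by
  set U := tdmSysU (N' * q) q (Dvd.intro_left N' rfl) hq.out.ne_zero with hU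
  set C := t4gSysCU N' q hqN' with hC
  refine AddMonoidHom.ext fun δ' => ?_
  obtain ⟨δ, rfl⟩ := Additive.ofMul.surjective δ'
  rw [tdmCosetSys.hom_apply, t2fRes_apply, T2fSys₂.cor_apply]
  refine Finset.sum_congr rfl fun i _ => ?_
  have h1 : C.rep i * (((Subgroup.inclusion (t2f5_Gamma0_le N' q) δ : Gamma0 N') : SL(2, ℤ)) :
        Matrix (Fin 2) (Fin 2) ℤ)
      = ((U.eps δ i : SL(2, ℤ)) : Matrix (Fin 2) (Fin 2) ℤ) * C.rep (U.sigma δ i) :=
    U.rep_mul δ i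
  rw [(C.eq_of_rep_mul h1).2]

/-! ### The genuine transfer -/

/-- the matrices `[[1, 0], [N' j, 1]]` -/
def t4gRepAMat (j : ℤ) : Matrix (Fin 2) (Fin 2) ℤ := !![1, 0; (N' : ℤ) * j, 1]

theorem t4gRepAMat_det (j : ℤ) : (t4gRepAMat N' j).det = 1 := by
  rw [t4gRepAMat, Matrix.det_fin_two_of]
  ring

/-- the representatives of `Γ₀(N' q) \ Γ₀(N')`, `q ∣ N'`, as elements of `Γ₀(N')` -/
def t4gRepA (j : Fin q) : Gamma0 N' :=
  ⟨⟨t4gRepAMat N' ((j : ℕ) : ℤ), t4gRepAMat_det N' _⟩, (tdm_mem_Gamma0_iff _).mpr (by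
    show (N' : ℤ) ∣ t4gRepAMat N' ((j : ℕ) : ℤ) 1 0
    simp [t4gRepAMat])⟩

theorem t4gRepA_coe (j : Fin q) :
    (((t4gRepA N' q j : Gamma0 N') : SL(2, ℤ)) : Matrix (Fin 2) (Fin 2) ℤ)
      = t4gRepAMat N' ((j : ℕ) : ℤ) := rfl

/-- every element of `Γ₀(N')` lies in `Γ₀(N' q) · g_j` for some `j` -/
theorem t4g_exists_repA (hqN' : q ∣ N') (g : Gamma0 N') :
    ∃ j : Fin q, ∃ ε : Gamma0 (N' * q),
      (g : SL(2, ℤ)) = (ε : SL(2, ℤ)) * (t4gRepA N' q j : SL(2, ℤ)) := by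
  obtain ⟨hD, hN⟩ := tdm_Gamma0_data g
  set D := ((g : SL(2, ℤ)) : Matrix (Fin 2) (Fin 2) ℤ) with hDdef
  obtain ⟨c', hc'⟩ := hN
  obtain ⟨m, hm⟩ : (q : ℤ) ∣ D 1 0 := (Int.natCast_dvd_natCast.mpr hqN').trans ⟨c', hc'⟩
  have hcop : IsCoprime (D 1 1) (q : ℤ) := by
    refine ⟨D 0 0, -(D 0 1 * m), ?_⟩
    rw [Matrix.det_fin_two] at hD
    rw [hm] at hD
    linear_combination hD
  obtain ⟨j, k, hk⟩ := tdm_exists_aff_sol hq.out.ne_zero hcop c'
  set γ : SL(2, ℤ) := (t4gRepA N' q j : SL(2, ℤ)) with hγ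
  refine ⟨j, ⟨(g : SL(2, ℤ)) * γ⁻¹, (tdm_mem_Gamma0_iff _).mpr ?_⟩, ?_⟩
  · have h10 : ((g : SL(2, ℤ)) * γ⁻¹) 1 0 = D 1 0 - D 1 1 * ((N' : ℤ) * ((j : ℕ) : ℤ)) := by
      rw [Matrix.SpecialLinearGroup.coe_mul, Matrix.SpecialLinearGroup.coe_inv,
        Matrix.adjugate_fin_two]
      have e11 : γ.1 1 1 = 1 := by
        show t4gRepAMat N' _ 1 1 = _
        simp [t4gRepAMat]
      have e10 : γ.1 1 0 = (N' : ℤ) * ((j : ℕ) : ℤ) := by
        show t4gRepAMat N' _ 1 0 = _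
        simp [t4gRepAMat]
      simp only [Matrix.mul_apply, Fin.sum_univ_two]
      simp [e11, e10]
      ring
    rw [h10, hc']
    push_cast
    refine ⟨k, ?_⟩
    linear_combination (N' : ℤ) * hk
  · show (g : SL(2, ℤ)) = (g : SL(2, ℤ)) * γ⁻¹ * γ
    rw [inv_mul_cancel_right]

/-- the representatives are pairwise `Γ₀(N' q)`-inequivalent -/
theorem t4g_repA_inequiv (i j : Fin q) (γ : Gamma0 (N' * q))
    (hγ : ((γ : SL(2, ℤ)) : Matrix (Fin 2) (Fin 2) ℤ)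
      * (((t4gRepA N' q i : Gamma0 N') : SL(2, ℤ)) : Matrix (Fin 2) (Fin 2) ℤ)
      = (((t4gRepA N' q j : Gamma0 N') : SL(2, ℤ)) : Matrix (Fin 2) (Fin 2) ℤ)) : i = j := by
  obtain ⟨t, ht⟩ : ((N' * q : ℕ) : ℤ) ∣ ((γ : SL(2, ℤ)) : Matrix (Fin 2) (Fin 2) ℤ) 1 0 :=
    (tdm_mem_Gamma0_iff _).mp γ.2
  set G := ((γ : SL(2, ℤ)) : Matrix (Fin 2) (Fin 2) ℤ) with hG
  rw [t4gRepA_coe, t4gRepA_coe] at hγ
  have h10 := congrFun (congrFun hγ 1) 0
  have h11 := congrFun (congrFun hγ 1) 1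
  simp [t4gRepAMat, Matrix.mul_apply, Fin.sum_univ_two] at h10 h11
  rw [ht, h11] at h10
  push_cast at h10
  have hN0 : (N' : ℤ) ≠ 0 := by exact_mod_cast NeZero.ne N'
  refine tdm_fin_eq_of_emod i j t ?_
  apply mul_left_cancel₀ hN0
  linear_combination -h10

/-- **the two-group coset system of `Γ₀(N' q) ⊂ Γ₀(N')`**, `q ∣ N'` -/
noncomputable def t4gSysCA (hqN' : q ∣ N') :
    T2fSys₂ (Gamma0 (N' * q)) (Gamma0 N') (Fin q) :=
  T2fSys₂.ofInequiv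
    (fun i => (((t4gRepA N' q i : Gamma0 N') : SL(2, ℤ)) : Matrix (Fin 2) (Fin 2) ℤ))
    (fun i => by rw [(t4gRepA N' q i : SL(2, ℤ)).2]; exact one_pos)
    (t4g_repA_inequiv N' q)
    (fun δ i => by
      obtain ⟨j, ε, hε⟩ := t4g_exists_repA N' q hqN' (t4gRepA N' q i * δ)
      refine ⟨j, ε, ?_⟩
      have := congrArg (fun x : SL(2, ℤ) => (x : Matrix (Fin 2) (Fin 2) ℤ)) hε
      simpa only [Subgroup.coe_mul, Matrix.SpecialLinearGroup.coe_mul] using this)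

/-- **`cor_A ∘ res = q`** -/
theorem t4g_corA_res (hqN' : q ∣ N') {A : Type*} [AddCommGroup A]
    (φ : Additive (Gamma0 N') →+ A) :
    (t4gSysCA N' q hqN').cor A (t2fRes (t2f5_Gamma0_le N' q) A φ) = q • φ := by
  have := t4g_cor_res (t4gSysCA N' q hqN') (t2f5_Gamma0_le N' q) (t4gRepA N' q)
    (fun i => rfl) φ
  rwa [Fintype.card_fin] at this

end Reps

end Fermat.Agent.T4
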